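/-
Programme S12 (one-step route), brick 753b AN-BRIDGE/FREY (helper47).

Specialisation of helper51's `AnBridge51.false_of_K` to the Frey curve `W = P.freyCurve`,
`Y² + XY = X³ + ((B - 1 - A)/4) X² - (AB/16) X` with `A = a^p`, `B = b^p`.  Its points of order `2` are
`T₁ = (0, 0)`, `T₂ = (A/4, -A/8)`, `T₃ = (-B/4, B/8)`; in the coordinate `x12 = 12 x + b₂` the differences
are `x12 T₁ - x12 T₂ = -(3 A)`, `x12 T₁ - x12 T₃ = 3 B`, and `x12 (k • t) - x12 Tᵢ = 12 (x(k • t) - x(Tᵢ))`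
for the nonzero multiples of `t`.

* `frey_false_of_K` : the output shape of K-ASM (products of `x(k • t) - eᵢ`, `eᵢ = 0, A/4, -B/4`) is
  contradictory.
-/
import Mathlib
import Fermat.Prelude.Def_FLTPrelim_GaloisRep
import Fermat.Agent.S13.FreyDelta
import Fermat.Agent.MAZ.EF86.ModInv
import Fermat.Agent.S12P.AnBridge51.General

set_option autoImplicit false
set_option linter.unusedSectionVars false
set_option linter.unusedVariables false

open WeierstrassCurve WeierstrassCurve.Affine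

namespace Fermat.Agent.S12P.AnBridge47

open Fermat.Agent.X0 Fermat.Agent.MAZ.Unif18 Fermat.Agent.MAZ.ModInv

local notation "Qb" => AlgebraicClosure ℚ

variable (P : FreyPackage)

/-- `a ^ p` in `ℚbar`. -/
noncomputable def cA : Qb := ((P.a : ℤ) : Qb) ^ P.p
/-- `b ^ p` in `ℚbar`. -/
noncomputable def cB : Qb := ((P.b : ℤ) : Qb) ^ P.p

theorem cA_ne_zero : cA P ≠ 0 := pow_ne_zero _ (Int.cast_ne_zero.mpr P.ha0)
theorem cB_ne_zero : cB P ≠ 0 := pow_ne_zero _ (Int.cast_ne_zero.mpr P.hb0)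

theorem cA_add_cB_ne_zero : cA P + cB P ≠ 0 := by
  have h := congrArg (Int.cast : ℤ → Qb) P.hFLT
  push_cast at h
  unfold cA cB
  rw [h]
  exact pow_ne_zero _ (Int.cast_ne_zero.mpr P.hc0)

/-- the Frey curve over `ℚbar`. -/
noncomputable abbrev V : WeierstrassCurve Qb := P.freyCurve.baseChange Qb

theorem V_a₁ : (V P).a₁ = 1 := by
  simp [V, WeierstrassCurve.baseChange, FreyPackage.freyCurve]

theorem V_a₃ : (V P).a₃ = 0 := by
  simp [V, WeierstrassCurve.baseChange, FreyPackage.freyCurve]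

theorem V_a₆ : (V P).a₆ = 0 := by
  simp [V, WeierstrassCurve.baseChange, FreyPackage.freyCurve]

theorem V_a₂ : (V P).a₂ = (cB P - 1 - cA P) / 4 := by
  simp [V, WeierstrassCurve.baseChange, FreyPackage.freyCurve, cA, cB]

theorem V_a₄ : (V P).a₄ = -(cA P * cB P) / 16 := by
  simp [V, WeierstrassCurve.baseChange, FreyPackage.freyCurve, cA, cB]

/-- a point `(e, -e/2)` with `e (4e - A) (4e + B) = 0` is a nonsingular point of the Frey curve. -/
theorem nonsingular_two_torsion {e : Qb} (he : e * (4 * e - cA P) * (4 * e + cB P) = 0) :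
    (V P).toAffine.Nonsingular e (-e / 2) := by
  have hA := cA_ne_zero P
  have hB := cB_ne_zero P
  have hC := cA_add_cB_ne_zero P
  rw [nonsingular_iff, equation_iff, V_a₁, V_a₃, V_a₆, V_a₂, V_a₄]
  refine ⟨?_, Or.inl ?_⟩
  · linear_combination (-1 / 16 : Qb) * he
  · intro hcon
    have key : 48 * e ^ 2 + 8 * (cB P - cA P) * e - cA P * cB P = 0 := by
      linear_combination (-16 : Qb) * hcon
    rcases mul_eq_zero.mp he with h | h
    · rcases mul_eq_zero.mp h with h | h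
      · rw [h] at key
        apply mul_ne_zero hA hB
        linear_combination -key
      · have he' : 4 * e = cA P := by linear_combination h
        apply mul_ne_zero hA hC
        linear_combination key - (12 * e + 3 * cA P + 2 * (cB P - cA P)) * he'
    · have he' : 4 * e = -cB P := by linear_combination h
      apply mul_ne_zero hB hC
      linear_combination key + (3 * cB P - 12 * e - 2 * (cB P - cA P)) * he'

/-- the point `(e, -e/2)` of order `2`. -/
noncomputable def T2 {e : Qb} (he : e * (4 * e - cA P) * (4 * e + cB P) = 0) :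
    (P.freyCurve⁄Qb).Point :=
  .some e (-e / 2) (nonsingular_two_torsion P he)

theorem T2_ne_zero {e : Qb} (he : e * (4 * e - cA P) * (4 * e + cB P) = 0) : T2 P he ≠ 0 := by
  intro h
  exact Point.some_ne_zero _ h

theorem two_nsmul_T2 {e : Qb} (he : e * (4 * e - cA P) * (4 * e + cB P) = 0) :
    2 • T2 P he = 0 := by
  rw [two_nsmul]
  unfold T2
  apply Point.add_self_of_Y_eq
  rw [negY, V_a₁, V_a₃]
  ring

theorem x12_T2 {e : Qb} (he : e * (4 * e - cA P) * (4 * e + cB P) = 0) :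
    x12 (V P) (T2 P he) = 12 * e + (V P).b₂ := rfl

theorem T2_ne {e e' : Qb} (he : e * (4 * e - cA P) * (4 * e + cB P) = 0)
    (he' : e' * (4 * e' - cA P) * (4 * e' + cB P) = 0) (h : e ≠ e') : T2 P he ≠ T2 P he' := by
  intro heq
  unfold T2 at heq
  injection heq with h1 h2
  exact h h1

theorem he₁ : (0 : Qb) * (4 * 0 - cA P) * (4 * 0 + cB P) = 0 := by ring
theorem he₂ : (cA P / 4) * (4 * (cA P / 4) - cA P) * (4 * (cA P / 4) + cB P) = 0 := by ring
theorem he₃ : (-cB P / 4) * (4 * (-cB P / 4) - cA P) * (4 * (-cB P / 4) + cB P) = 0 := by ring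

/-- `x12 (k • t) - x12 T = 12 (x(k • t) - x(T))` for a nonzero multiple. -/
theorem x12_sub_x12 {Q : (P.freyCurve⁄Qb).Point} (hQ : Q ≠ 0) {e : Qb}
    (he : e * (4 * e - cA P) * (4 * e + cB P) = 0) :
    x12 (V P) Q - x12 (V P) (T2 P he) = 12 * (xco (V P) Q - e) := by
  rcases Q with _ | ⟨x, y, h⟩
  · exact absurd rfl hQ
  · show (12 * x + (V P).b₂) - (12 * e + (V P).b₂) = 12 * (x - e)
    ring

/-- **AN-BRIDGE for the Frey curve**: the identities (K) are contradictory. -/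
theorem frey_false_of_K {m : ℕ} (hpm : P.p = 2 * m + 1) (t : (P.freyCurve⁄Qb).Point)
    (ht : addOrderOf t = P.p)
    (hK : (∏ k ∈ Finset.Ico 1 (m + 1), xco (P.freyCurve.baseChange Qb) (k • t)) ^ 4 =
        16 ^ (P.p - 1) * (∏ k ∈ Finset.Ico 1 (m + 1),
          (xco (P.freyCurve.baseChange Qb) (k • t) - ((P.a : ℤ) : Qb) ^ P.p / 4)) ^ 4 ∧
      (∏ k ∈ Finset.Ico 1 (m + 1),
          (xco (P.freyCurve.baseChange Qb) (k • t) + ((P.b : ℤ) : Qb) ^ P.p / 4)) ^ 4 =
        16 ^ (P.p - 1) * (∏ k ∈ Finset.Ico 1 (m + 1),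
          (xco (P.freyCurve.baseChange Qb) (k • t) - ((P.a : ℤ) : Qb) ^ P.p / 4)) ^ 4) :
    False := by
  have hm : 1 ≤ m := by have := P.hp5; omega
  -- the nonzero multiples
  have hkt : ∀ k ∈ Finset.Ico 1 (m + 1), k • t ≠ 0 := by
    intro k hk h0
    rw [Finset.mem_Ico] at hk
    have hdvd : addOrderOf t ∣ k := addOrderOf_dvd_of_nsmul_eq_zero h0
    rw [ht] at hdvd
    have := Nat.le_of_dvd (by omega) hdvd
    omega
  -- products in the `x12` coordinate
  have hprod : ∀ {e : Qb} (he : e * (4 * e - cA P) * (4 * e + cB P) = 0),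
      ∏ k ∈ Finset.Ico 1 (m + 1), (x12 (V P) (k • t) - x12 (V P) (T2 P he)) =
        12 ^ m * ∏ k ∈ Finset.Ico 1 (m + 1), (xco (V P) (k • t) - e) := by
    intro e he
    rw [Finset.prod_congr rfl fun k hk => x12_sub_x12 P (hkt k hk) he, Finset.prod_mul_distrib,
      Finset.prod_const]
    congr 1
    simp
  have h12 : ((12 : Qb) ^ m) ^ 4 ≠ 0 := pow_ne_zero _ (pow_ne_zero _ (by norm_num))
  obtain ⟨hK1, hK3⟩ := hK
  refine Fermat.Agent.S12P.AnBridge51.false_of_K P.freyCurve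
    (Fermat.Agent.S13.FreyDelta.freyCurve_Δ_ne_zero P) P.pp hpm hm t ht
    (T2 P (he₁ P)) (T2 P (he₂ P)) (T2 P (he₃ P))
    (T2_ne_zero P _) (T2_ne_zero P _) (T2_ne_zero P _)
    (two_nsmul_T2 P _) (two_nsmul_T2 P _) (two_nsmul_T2 P _)
    (T2_ne P _ _ ?_) (T2_ne P _ _ ?_) (T2_ne P _ _ ?_)
    (A := P.a ^ P.p) (B := P.b ^ P.p) (pow_ne_zero _ P.ha0) (pow_ne_zero _ P.hb0)
    (s := 3) (by norm_num) ?_ ?_ ?_ ?_
  · -- `0 ≠ A/4`
    intro h
    apply cA_ne_zero P
    linear_combination (-4 : Qb) * h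
  · -- `0 ≠ -B/4`
    intro h
    apply cB_ne_zero P
    linear_combination (4 : Qb) * h
  · -- `A/4 ≠ -B/4`
    intro h
    apply cA_add_cB_ne_zero P
    linear_combination (4 : Qb) * h
  · rw [x12_T2, x12_T2]
    unfold cA
    push_cast
    ring
  · rw [x12_T2, x12_T2]
    unfold cB
    push_cast
    ring
  · rw [hprod (he₁ P), hprod (he₂ P), mul_pow, mul_pow]
    have e1 : ∏ k ∈ Finset.Ico 1 (m + 1), (xco (V P) (k • t) - 0) =
        ∏ k ∈ Finset.Ico 1 (m + 1), xco (V P) (k • t) :=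
      Finset.prod_congr rfl fun k _ => sub_zero _
    rw [e1]
    have := hK1
    unfold cA
    linear_combination ((12 : Qb) ^ m) ^ 4 * this
  · rw [hprod (he₃ P), hprod (he₂ P), mul_pow, mul_pow]
    have e3 : ∏ k ∈ Finset.Ico 1 (m + 1), (xco (V P) (k • t) - -cB P / 4) =
        ∏ k ∈ Finset.Ico 1 (m + 1), (xco (V P) (k • t) + ((P.b : ℤ) : Qb) ^ P.p / 4) :=
      Finset.prod_congr rfl fun k _ => by unfold cB; ring
    rw [e3]
    have := hK3
    unfold cA
    linear_combination ((12 : Qb) ^ m) ^ 4 * this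

end Fermat.Agent.S12P.AnBridge47
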